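/-
S37 / GALREP package E1 (helper3831): `[ℚ̄(X₀(Nℓ)) : ℚ̄(X₀(N))] = ℓ + 1` along `α` (prime `ℓ ∤ N`),
from the landed S24 degree `[ℚ̄(X₀(M)) : ℚ̄(j)] = ψ(M)`.
-/
import Mathlib
import Fermat.Agent.S24.Modular
import Fermat.Agent.S24.CountingIndex
import Fermat.Prelude.Def_ModularCurve_HeckeOperator

set_option autoImplicit false
set_option linter.unusedSectionVars false

open ModularCurve IntermediateField AlgebraicCurve
open scoped MatrixGroups

namespace Fermat.Agent.S37.E1_3831

noncomputable section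

local notation "K" => AlgebraicClosure ℚ

/-- The field `ℚ̄(j)` inside `ℚ̄((q))`. -/
def jField : IntermediateField K (LaurentSeries K) := K⟮coeffEmb K jq⟯

theorem jField_le (N : ℕ) [NeZero N] : jField ≤ modularFunctionFieldBar N := by
  rw [jField, adjoin_simple_le_iff]
  exact (Fermat.Agent.S24.jBar N).2

theorem comap_jField (N : ℕ) [NeZero N] :
    jField.comap (modularFunctionFieldBar N).val = K⟮Fermat.Agent.S24.jBar N⟯ := by
  have hmap : (K⟮Fermat.Agent.S24.jBar N⟯).map (modularFunctionFieldBar N).val = jField := by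
    rw [IntermediateField.adjoin_map, Set.image_singleton]
    rfl
  ext x
  show (modularFunctionFieldBar N).val x ∈ jField ↔ _
  rw [← hmap, IntermediateField.mem_map]
  constructor
  · rintro ⟨y, hy, hxy⟩
    have : y = x := Subtype.ext hxy
    rwa [this] at hy
  · intro hx
    exact ⟨x, hx, rfl⟩

theorem relfinrank_jField (N : ℕ) [NeZero N] :
    jField.relfinrank (modularFunctionFieldBar N) = dedekindPsi N := by
  have h1 := IntermediateField.finrank_comap (A := jField) (modularFunctionFieldBar N).val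
  rw [IntermediateField.fieldRange_val] at h1
  rw [← h1, comap_jField, Fermat.Agent.S24.finrank_jBar,
    Fermat.Agent.S24.Cnt.card_quotient_Gamma0 N (NeZero.ne N)]

variable (N ℓ : ℕ) [NeZero N] [NeZero ℓ]

theorem bar_le_bar_mul : modularFunctionFieldBar N ≤ modularFunctionFieldBar (N * ℓ) := by
  intro x hx
  exact (heckeAlphaBar K N ℓ ⟨x, hx⟩).2

theorem relfinrank_bar_mul (hℓ : ℓ.Prime) (hℓN : ¬ ℓ ∣ N) :
    (modularFunctionFieldBar N).relfinrank (modularFunctionFieldBar (N * ℓ)) = ℓ + 1 := by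
  have h := IntermediateField.relfinrank_mul_relfinrank (jField_le N) (bar_le_bar_mul N ℓ)
  rw [relfinrank_jField, relfinrank_jField,
    Fermat.Agent.S24.Cnt.dedekindPsi_mul_of_not_dvd N ℓ (NeZero.ne N) hℓ hℓN] at h
  have hpos : 0 < dedekindPsi N := by
    rw [← Fermat.Agent.S24.Cnt.card_quotient_Gamma0 N (NeZero.ne N),
      ← Fermat.Agent.S24.finrank_jBar]
    have := Fermat.Agent.S24.finiteDimensional_jBar N
    exact Module.finrank_pos
  exact Nat.eq_of_mul_eq_mul_left hpos (by rw [h]; ring)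

/-- `[ℚ̄(X₀(Nℓ)) : ℚ̄(X₀(N))] = ℓ + 1` along the inclusion `α`. -/
theorem finrankAlong_heckeAlphaBar (hℓ : ℓ.Prime) (hℓN : ¬ ℓ ∣ N) :
    finrankAlong K (heckeAlphaBar K N ℓ) = ℓ + 1 := by
  rw [← relfinrank_bar_mul N ℓ hℓ hℓN,
    IntermediateField.relfinrank_eq_finrank_of_le (bar_le_bar_mul N ℓ), finrankAlong]
  let _ := algebraAlong (heckeAlphaBar K N ℓ)
  let e : ↥(extendScalars (bar_le_bar_mul N ℓ)) ≃ₗ[↥(modularFunctionFieldBar N)]
      ↥(modularFunctionFieldBar (N * ℓ)) :=
    { toFun := fun x => ⟨x.1, x.2⟩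
      invFun := fun x => ⟨x.1, x.2⟩
      map_add' := fun _ _ => rfl
      map_smul' := fun _ _ => rfl
      left_inv := fun _ => rfl
      right_inv := fun _ => rfl }
  exact e.symm.finrank_eq

end

end Fermat.Agent.S37.E1_3831
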