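/-
S37 / GALREP package E1 (helper3831): the Atkin–Lehner swap on `ℚ̄(X₀(Nℓ))`.

For a prime `ℓ ∤ N` there is a ring endomorphism `w` of `modularFunctionFieldBar (N * ℓ)`,
identity on constants, with `w ∘ α = β` and `w ∘ β = α`, where `α = heckeAlphaBar` is the
inclusion and `β = heckeBetaBar` is `q ↦ q^ℓ`.

Proof: by the landed S24 bridge a polynomial relation among the formal `j(q^d)` is a relation
among the functions `τ ↦ j(dτ)`; substitute `τ ↦ (aℓτ + b)/(Nℓτ + ℓ)` with `aℓ - bN = 1` and use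
the `SL(2,ℤ)`-invariance of `j`.
-/
import Mathlib
import Fermat.Agent.S24.B4h8917
import Fermat.Agent.S24.LevelOneJ
import Fermat.Prelude.Def_ModularCurve_HeckeOperator

set_option autoImplicit false
set_option linter.unusedSectionVars false

open UpperHalfPlane ModularCurve
open scoped MatrixGroups

namespace Fermat.Agent.S37.E1_3831

noncomputable section

open Fermat.Agent.S24 Fermat.Agent.S24.B4h8917

local notation "K" => AlgebraicClosure ℚ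

/-! ### Möbius computations -/

theorem sl_coe (γ : SL(2, ℤ)) (z : ℍ) :
    ((γ • z : ℍ) : ℂ) = ((γ 0 0 : ℂ) * z + (γ 0 1 : ℂ)) / ((γ 1 0 : ℂ) * z + (γ 1 1 : ℂ)) := by
  rw [coe_specialLinearGroup_apply]
  simp

theorem denom_ne_zero_aux (c r : ℝ) (hc : 0 < c) (z : ℍ) : (c : ℂ) * (z : ℂ) + (r : ℂ) ≠ 0 := by
  intro h
  have him := congrArg Complex.im h
  simp only [Complex.add_im, Complex.mul_im, Complex.ofReal_re, Complex.ofReal_im, zero_mul,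
    add_zero, Complex.zero_im] at him
  have hz : 0 < (z : ℂ).im := z.im_pos
  have : 0 < c * (z : ℂ).im := mul_pos hc hz
  linarith

/-- The Atkin–Lehner substitution: a point `τ'` with `j(dτ') = j(dℓτ)` and `j(dℓτ') = j(dτ)`
for all `d ∣ N`. -/
theorem exists_swap_point (N ℓ : ℕ) (hN : 0 < N) (hℓ : 0 < ℓ) (hcop : Nat.Coprime ℓ N) (τ : ℍ) :
    ∃ τ' : ℍ, ∀ d : ℕ, d ∣ N →
      jC (dmul d τ') = jC (dmul (d * ℓ) τ) ∧ jC (dmul (d * ℓ) τ') = jC (dmul d τ) := by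
  obtain ⟨a, b, hab⟩ : ∃ a b : ℤ, a * ℓ - b * N = 1 := by
    have h : IsCoprime (ℓ : ℤ) (N : ℤ) := Nat.isCoprime_iff_coprime.mpr hcop
    obtain ⟨u, v, huv⟩ := h
    exact ⟨u, -v, by linarith⟩
  let γ₁ : SL(2, ℤ) := ⟨!![a, b; (N : ℤ), (ℓ : ℤ)], by
    rw [Matrix.det_fin_two_of]; linarith⟩
  refine ⟨γ₁ • dmul ℓ τ, ?_⟩
  rintro d ⟨e, rfl⟩
  have hd : 0 < d := Nat.pos_of_mul_pos_right hN
  have he : 0 < e := Nat.pos_of_mul_pos_left hN
  have hdℓ : 0 < d * ℓ := Nat.mul_pos hd hℓ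
  have hab' : a * ℓ - b * (d * e) = 1 := by
    have := hab
    push_cast at this
    linarith
  let γd : SL(2, ℤ) := ⟨!![a, d * b; (e : ℤ), (ℓ : ℤ)], by
    rw [Matrix.det_fin_two_of]; linarith⟩
  let γd' : SL(2, ℤ) := ⟨!![ℓ * a, d * b; (e : ℤ), 1], by
    rw [Matrix.det_fin_two_of]; linarith⟩
  have hden1 : ((d * e : ℕ) : ℂ) * ((ℓ : ℂ) * τ) + (ℓ : ℂ) ≠ 0 := by
    have := denom_ne_zero_aux ((d * e : ℕ) * ℓ : ℝ) (ℓ : ℝ) (by positivity) τ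
    push_cast at this ⊢
    intro h
    apply this
    rw [← h]; ring
  have hden2 : (e : ℂ) * (((d * ℓ : ℕ) : ℂ) * τ) + (ℓ : ℂ) ≠ 0 := by
    intro h
    apply hden1
    rw [← h]; push_cast; ring
  have hden3 : (e : ℂ) * ((d : ℂ) * τ) + 1 ≠ 0 := by
    have := denom_ne_zero_aux ((e : ℝ) * d) (1 : ℝ) (by positivity) τ
    push_cast at this
    intro h
    apply this
    rw [← h]; ring
  have hℓC : (ℓ : ℂ) ≠ 0 := by exact_mod_cast hℓ.ne'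
  have h1 : dmul d (γ₁ • dmul ℓ τ) = γd • dmul (d * ℓ) τ := by
    apply UpperHalfPlane.ext
    rw [coe_dmul hd, sl_coe, sl_coe, coe_dmul hℓ, coe_dmul hdℓ]
    simp only [γ₁, γd, Matrix.of_apply, Matrix.cons_val',
      Matrix.cons_val_zero, Matrix.cons_val_one, Matrix.cons_val_fin_one]
    push_cast
    have hden2' : (e : ℂ) * ((d : ℂ) * (ℓ : ℂ) * τ) + (ℓ : ℂ) ≠ 0 := by
      have := hden2; push_cast at this; exact this
    have hden1' : (d : ℂ) * (e : ℂ) * ((ℓ : ℂ) * τ) + (ℓ : ℂ) ≠ 0 := by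
      have := hden1; push_cast at this; exact this
    field_simp
  have h2 : dmul (d * ℓ) (γ₁ • dmul ℓ τ) = γd' • dmul d τ := by
    apply UpperHalfPlane.ext
    rw [coe_dmul hdℓ, sl_coe, sl_coe, coe_dmul hℓ, coe_dmul hd]
    simp only [γ₁, γd', Matrix.of_apply, Matrix.cons_val',
      Matrix.cons_val_zero, Matrix.cons_val_one, Matrix.cons_val_fin_one]
    push_cast
    have hden1' : (d : ℂ) * (e : ℂ) * ((ℓ : ℂ) * τ) + (ℓ : ℂ) ≠ 0 := by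
      have := hden1; push_cast at this; exact this
    have hden1'' : (d : ℂ) * (e : ℂ) * ((ℓ : ℂ) * τ) + (ℓ : ℂ)
        = (ℓ : ℂ) * ((e : ℂ) * ((d : ℂ) * τ) + 1) := by ring
    rw [hden1'']
    field_simp
  exact ⟨by rw [h1, jC_smul], by rw [h2, jC_smul]⟩

/-! ### Transfer of relations -/

/-- Relations among the formal `j(q^{d i})` transfer along a substitution on `ℍ`. -/
theorem rel_transfer {I : Type*} (d d' : I → ℕ) [hd : ∀ i, NeZero (d i)] [hd' : ∀ i, NeZero (d' i)]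
    (h : ∀ τ : ℍ, ∃ τ' : ℍ, ∀ i, jC (dmul (d i) τ') = jC (dmul (d' i) τ))
    (P : MvPolynomial I K)
    (hP : MvPolynomial.aeval (fun i => coeffEmb K (qExpand ℚ (d i) jq)) P = 0) :
    MvPolynomial.aeval (fun i => coeffEmb K (qExpand ℚ (d' i) jq)) P = 0 := by
  rw [JqB.aeval_coeffEmb_qExpand_jq_eq_zero_iff' iotaB d P] at hP
  rw [JqB.aeval_coeffEmb_qExpand_jq_eq_zero_iff' iotaB d' P]
  intro τ
  obtain ⟨τ', hτ'⟩ := h τ
  have h0 := hP τ'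
  have hfun : (fun i => ModularForm.E₄ (JqB.dil (d' i) τ) ^ 3
        / ModularForm.discriminant (JqB.dil (d' i) τ))
      = fun i => ModularForm.E₄ (JqB.dil (d i) τ') ^ 3
        / ModularForm.discriminant (JqB.dil (d i) τ') := by
    funext i
    rw [← jC_dmul, ← jC_dmul, hτ' i]
  rw [hfun]
  exact h0

/-! ### The swap of divisors of `N * ℓ` -/

section Swap

variable (N ℓ : ℕ) [NeZero N] [NeZero ℓ]

theorem dvd_of_dvd_mul_of_not_dvd (hℓ : ℓ.Prime) {d : ℕ} (hd : d ∣ N * ℓ) (h : ¬ ℓ ∣ d) :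
    d ∣ N :=
  (Nat.Coprime.dvd_of_dvd_mul_right ((Nat.Prime.coprime_iff_not_dvd hℓ).mpr h).symm hd)

theorem div_dvd_of_dvd (hℓ : ℓ.Prime) {d : ℕ} (hd : d ∣ N * ℓ) (h : ℓ ∣ d) : d / ℓ ∣ N := by
  obtain ⟨c, rfl⟩ := h
  rw [Nat.mul_div_cancel_left c hℓ.pos]
  rw [mul_comm N ℓ] at hd
  exact Nat.dvd_of_mul_dvd_mul_left hℓ.pos hd

/-- The involution `d ↔ dℓ` on the divisors of `N * ℓ`. -/
def swapIdx (hℓ : ℓ.Prime) (d : Dv (N * ℓ)) : Dv (N * ℓ) :=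
  if h : ℓ ∣ d.1 then ⟨d.1 / ℓ, Dvd.dvd.mul_right (div_dvd_of_dvd N ℓ hℓ d.2 h) ℓ⟩
  else ⟨d.1 * ℓ, Nat.mul_dvd_mul_right (dvd_of_dvd_mul_of_not_dvd N ℓ hℓ d.2 h) ℓ⟩

theorem swapIdx_of_dvd (hℓ : ℓ.Prime) (d : Dv (N * ℓ)) (h : ℓ ∣ d.1) :
    (swapIdx N ℓ hℓ d).1 = d.1 / ℓ := by
  rw [swapIdx, dif_pos h]

theorem swapIdx_of_not_dvd (hℓ : ℓ.Prime) (d : Dv (N * ℓ)) (h : ¬ ℓ ∣ d.1) :
    (swapIdx N ℓ hℓ d).1 = d.1 * ℓ := by
  rw [swapIdx, dif_neg h]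

theorem swapIdx_swapIdx (hℓ : ℓ.Prime) (hℓN : ¬ ℓ ∣ N) (d : Dv (N * ℓ)) :
    swapIdx N ℓ hℓ (swapIdx N ℓ hℓ d) = d := by
  apply Subtype.ext
  by_cases h : ℓ ∣ d.1
  · have h1 := swapIdx_of_dvd N ℓ hℓ d h
    have h2 : ¬ ℓ ∣ (swapIdx N ℓ hℓ d).1 := by
      rw [h1]
      intro h3
      exact hℓN (h3.trans (div_dvd_of_dvd N ℓ hℓ d.2 h))
    rw [swapIdx_of_not_dvd N ℓ hℓ _ h2, h1, Nat.div_mul_cancel h]
  · have h1 := swapIdx_of_not_dvd N ℓ hℓ d h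
    have h2 : ℓ ∣ (swapIdx N ℓ hℓ d).1 := by
      rw [h1]; exact dvd_mul_left ℓ _
    rw [swapIdx_of_dvd N ℓ hℓ _ h2, h1, Nat.mul_div_cancel _ hℓ.pos]

theorem exists_point_swapIdx (hℓ : ℓ.Prime) (hℓN : ¬ ℓ ∣ N) (τ : ℍ) :
    ∃ τ' : ℍ, ∀ i : Dv (N * ℓ), jC (dmul i.1 τ') = jC (dmul (swapIdx N ℓ hℓ i).1 τ) := by
  obtain ⟨τ', hτ'⟩ := exists_swap_point N ℓ (Nat.pos_of_ne_zero (NeZero.ne N)) hℓ.pos
    ((Nat.Prime.coprime_iff_not_dvd hℓ).mpr hℓN) τ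
  refine ⟨τ', fun i => ?_⟩
  by_cases h : ℓ ∣ i.1
  · rw [swapIdx_of_dvd N ℓ hℓ i h]
    have h2 := (hτ' (i.1 / ℓ) (div_dvd_of_dvd N ℓ hℓ i.2 h)).2
    rwa [Nat.div_mul_cancel h] at h2
  · rw [swapIdx_of_not_dvd N ℓ hℓ i h]
    exact (hτ' i.1 (dvd_of_dvd_mul_of_not_dvd N ℓ hℓ i.2 h)).1

theorem coe_eval₂_jBD (g : Dv (N * ℓ) → Dv (N * ℓ)) (P : MvPolynomial (Dv (N * ℓ)) K) :
    ((MvPolynomial.eval₂ (algebraMap K ↥(modularFunctionFieldBar (N * ℓ)))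
      (fun d => jBD (N * ℓ) (g d)) P : ↥(modularFunctionFieldBar (N * ℓ))) : LaurentSeries K)
      = MvPolynomial.aeval (fun d => jqB (N * ℓ) (g d)) P := by
  have h := MvPolynomial.hom_eval₂ P (algebraMap K ↥(modularFunctionFieldBar (N * ℓ)))
    (modularFunctionFieldBar (N * ℓ)).val.toRingHom (fun d => jBD (N * ℓ) (g d))
  rw [MvPolynomial.aeval_def]
  exact h

/-- **The Atkin–Lehner swap** as a ring endomorphism of `ℚ̄(X₀(Nℓ))`. -/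
theorem exists_swapHom (hℓ : ℓ.Prime) (hℓN : ¬ ℓ ∣ N) :
    ∃ w : ↥(modularFunctionFieldBar (N * ℓ)) →+* ↥(modularFunctionFieldBar (N * ℓ)),
      (∀ c : K, w (algebraMap K _ c) = algebraMap K _ c) ∧
      (∀ d : Dv (N * ℓ), w (jBD (N * ℓ) d) = jBD (N * ℓ) (swapIdx N ℓ hℓ d)) := by
  refine exists_ringHom_of_relations (N * ℓ) (algebraMap K ↥(modularFunctionFieldBar (N * ℓ)))
    (fun d => jBD (N * ℓ) (swapIdx N ℓ hℓ d)) (fun P => ?_)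
  have hcoe : MvPolynomial.eval₂ (algebraMap K ↥(modularFunctionFieldBar (N * ℓ)))
      (fun d => jBD (N * ℓ) (swapIdx N ℓ hℓ d)) P = 0 ↔
      MvPolynomial.aeval (fun d => jqB (N * ℓ) (swapIdx N ℓ hℓ d)) P = 0 := by
    rw [← coe_eval₂_jBD N ℓ (swapIdx N ℓ hℓ) P]
    exact ⟨fun h => by rw [h]; rfl, fun h => Subtype.ext h⟩
  rw [hcoe]
  have hne : ∀ i : Dv (N * ℓ), NeZero i.1 := fun i => i.neZero
  have hne' : ∀ i : Dv (N * ℓ), NeZero (swapIdx N ℓ hℓ i).1 := fun i => (swapIdx N ℓ hℓ i).neZero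
  constructor
  · intro h
    exact rel_transfer (fun i : Dv (N * ℓ) => i.1) (fun i => (swapIdx N ℓ hℓ i).1)
      (exists_point_swapIdx N ℓ hℓ hℓN) P h
  · intro h
    have hne'' : ∀ i : Dv (N * ℓ), NeZero (swapIdx N ℓ hℓ (swapIdx N ℓ hℓ i)).1 :=
      fun i => (swapIdx N ℓ hℓ (swapIdx N ℓ hℓ i)).neZero
    have h2 := rel_transfer (fun i : Dv (N * ℓ) => (swapIdx N ℓ hℓ i).1)
      (fun i => (swapIdx N ℓ hℓ (swapIdx N ℓ hℓ i)).1)
      (fun τ => by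
        obtain ⟨τ', hτ'⟩ := exists_point_swapIdx N ℓ hℓ hℓN τ
        exact ⟨τ', fun i => hτ' (swapIdx N ℓ hℓ i)⟩) P h
    have hfun : (fun i : Dv (N * ℓ) => coeffEmb K
        (qExpand ℚ (swapIdx N ℓ hℓ (swapIdx N ℓ hℓ i)).1 jq)) = jqB (N * ℓ) := by
      funext i
      have := swapIdx_swapIdx N ℓ hℓ hℓN i
      rw [jqB]
      congr 1
      exact qExpand_congr (congrArg Subtype.val this) jq
    rw [hfun] at h2
    exact h2

theorem coe_heckeBetaBar_jBD (d : Dv N) :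
    ((heckeBetaBar K N ℓ (jBD N d) : ↥(modularFunctionFieldBar (N * ℓ))) : LaurentSeries K)
      = jqB (N * ℓ) ⟨d.1 * ℓ, Nat.mul_dvd_mul_right d.2 ℓ⟩ := by
  have := d.neZero
  rw [coe_heckeBetaBar]
  show qExpand K ℓ (coeffEmb K (qExpand ℚ d.1 jq)) = coeffEmb K (qExpand ℚ (d.1 * ℓ) jq)
  rw [coeffEmb, ← ModularCurve.coeffMap_qExpand, qExpand_qExpand]
  congr 1
  exact qExpand_congr (mul_comm ℓ d.1) jq

theorem heckeBetaBar_jBD (d : Dv N) :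
    heckeBetaBar K N ℓ (jBD N d) = jBD (N * ℓ) ⟨d.1 * ℓ, Nat.mul_dvd_mul_right d.2 ℓ⟩ :=
  Subtype.ext (coe_heckeBetaBar_jBD N ℓ d)

theorem heckeAlphaBar_jBD (d : Dv N) :
    heckeAlphaBar K N ℓ (jBD N d) = jBD (N * ℓ) ⟨d.1, Dvd.dvd.mul_right d.2 ℓ⟩ :=
  Subtype.ext (by rw [coe_heckeAlphaBar]; rfl)

/-- **The Atkin–Lehner swap**: `w ∘ α = β` and `w ∘ β = α`. -/
theorem exists_swap (hℓ : ℓ.Prime) (hℓN : ¬ ℓ ∣ N) :
    ∃ w : ↥(modularFunctionFieldBar (N * ℓ)) →+* ↥(modularFunctionFieldBar (N * ℓ)),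
      (∀ c : K, w (algebraMap K _ c) = algebraMap K _ c) ∧
      (∀ x : ↥(modularFunctionFieldBar N), w (heckeAlphaBar K N ℓ x) = heckeBetaBar K N ℓ x) ∧
      (∀ x : ↥(modularFunctionFieldBar N), w (heckeBetaBar K N ℓ x) = heckeAlphaBar K N ℓ x) := by
  obtain ⟨w, hc, hj⟩ := exists_swapHom N ℓ hℓ hℓN
  refine ⟨w, hc, fun x => ?_, fun x => ?_⟩
  · have h : w.comp (heckeAlphaBar K N ℓ).toRingHom = (heckeBetaBar K N ℓ).toRingHom := by
      refine ringHom_ext' _ _ (fun a => ?_) (fun d => ?_)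
      · show w (heckeAlphaBar K N ℓ (algebraMap K _ a)) = heckeBetaBar K N ℓ (algebraMap K _ a)
        rw [AlgHom.commutes, AlgHom.commutes, hc]
      · show w (heckeAlphaBar K N ℓ (jBD N d)) = heckeBetaBar K N ℓ (jBD N d)
        rw [heckeAlphaBar_jBD, heckeBetaBar_jBD, hj]
        congr 1
        apply Subtype.ext
        have hnd : ¬ ℓ ∣ d.1 := fun h => hℓN (h.trans d.2)
        exact swapIdx_of_not_dvd N ℓ hℓ ⟨d.1, Dvd.dvd.mul_right d.2 ℓ⟩ hnd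
    exact congrArg (fun f : ↥(modularFunctionFieldBar N) →+* ↥(modularFunctionFieldBar (N * ℓ))
      => f x) h
  · have h : w.comp (heckeBetaBar K N ℓ).toRingHom = (heckeAlphaBar K N ℓ).toRingHom := by
      refine ringHom_ext' _ _ (fun a => ?_) (fun d => ?_)
      · show w (heckeBetaBar K N ℓ (algebraMap K _ a)) = heckeAlphaBar K N ℓ (algebraMap K _ a)
        rw [AlgHom.commutes, AlgHom.commutes, hc]
      · show w (heckeBetaBar K N ℓ (jBD N d)) = heckeAlphaBar K N ℓ (jBD N d)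
        rw [heckeAlphaBar_jBD, heckeBetaBar_jBD, hj]
        congr 1
        apply Subtype.ext
        have hd : ℓ ∣ d.1 * ℓ := dvd_mul_left ℓ _
        rw [swapIdx_of_dvd N ℓ hℓ ⟨d.1 * ℓ, Nat.mul_dvd_mul_right d.2 ℓ⟩ hd]
        exact Nat.mul_div_cancel _ hℓ.pos
    exact congrArg (fun f : ↥(modularFunctionFieldBar N) →+* ↥(modularFunctionFieldBar (N * ℓ))
      => f x) h

end Swap

end

end Fermat.Agent.S37.E1_3831
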