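/-
S37 / GALREP package E1 (helper3831): Laurent series toolkit.
The twist `q ↦ ξ q`, its compatibility with `qExpand` and `coeffMap`, restriction of coefficients
to a subring, and the Frobenius identity `f ^ p = qExpand p (coeffMap frobenius f)` in
characteristic `p`.
-/
import Mathlib
import Fermat.Prelude.Def_ModularCurve_X0ModL

set_option autoImplicit false

noncomputable section

namespace Fermat.Agent.S37.E1_3831

open ModularCurve HahnSeries

variable {A : Type*} [CommRing A]

/-! ### The twist `q ↦ ξ q` -/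

/-- The twist `q ↦ ξ q` on Laurent series: `∑ aₙ qⁿ ↦ ∑ aₙ ξⁿ qⁿ`. -/
def twFun (ξ : Aˣ) (f : LaurentSeries A) : LaurentSeries A where
  coeff n := ((ξ ^ n : Aˣ) : A) * f.coeff n
  isPWO_support' := f.isPWO_support.mono (fun n hn => by
    simp only [Function.mem_support, ne_eq, HahnSeries.mem_support] at hn ⊢
    intro h; exact hn (by rw [h, mul_zero]))

@[simp] theorem twFun_coeff (ξ : Aˣ) (f : LaurentSeries A) (n : ℤ) :
    (twFun ξ f).coeff n = ((ξ ^ n : Aˣ) : A) * f.coeff n := rfl

theorem twFun_support (ξ : Aˣ) (f : LaurentSeries A) :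
    (twFun ξ f).support = f.support := by
  ext n
  simp only [HahnSeries.mem_support, twFun_coeff, ne_eq, Units.mul_right_eq_zero]

theorem twFun_mul (ξ : Aˣ) (f g : LaurentSeries A) :
    twFun ξ (f * g) = twFun ξ f * twFun ξ g := by
  ext n
  rw [twFun_coeff, HahnSeries.coeff_mul, HahnSeries.coeff_mul, Finset.mul_sum]
  have hfin : Finset.antidiagonal (twFun ξ f).isPWO_support (twFun ξ g).isPWO_support n
      = Finset.antidiagonal f.isPWO_support g.isPWO_support n := by
    ext ij
    simp only [Finset.mem_antidiagonal, twFun_support]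
  rw [hfin]
  refine Finset.sum_congr rfl fun ij hij => ?_
  have hn : ij.1 + ij.2 = n := (Finset.mem_antidiagonal.mp hij).2.2
  rw [twFun_coeff, twFun_coeff, ← hn, zpow_add, Units.val_mul]
  ring

/-- The twist as a ring homomorphism. -/
def tw (ξ : Aˣ) : LaurentSeries A →+* LaurentSeries A where
  toFun := twFun ξ
  map_one' := by
    ext n
    rw [twFun_coeff, HahnSeries.coeff_one]
    split_ifs with h
    · subst h; simp
    · simp
  map_mul' := twFun_mul ξ
  map_zero' := by ext n; simp
  map_add' f g := by ext n; simp [mul_add]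

@[simp] theorem tw_coeff (ξ : Aˣ) (f : LaurentSeries A) (n : ℤ) :
    (tw ξ f).coeff n = ((ξ ^ n : Aˣ) : A) * f.coeff n := rfl

theorem tw_one (f : LaurentSeries A) : tw (1 : Aˣ) f = f := by
  ext n; simp

/-- Twisting a series in `q^n` by `ξ` is twisting by `ξ^n` before expanding. -/
theorem tw_qExpand (ξ : Aˣ) (n : ℕ) [NeZero n] (f : LaurentSeries A) :
    tw ξ (qExpand A n f) = qExpand A n (tw (ξ ^ n) f) := by
  ext k
  by_cases hk : (n : ℤ) ∣ k
  · obtain ⟨m, rfl⟩ := hk
    rw [tw_coeff, qExpand_coeff_mul, qExpand_coeff_mul, tw_coeff, zpow_mul, zpow_natCast]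
  · rw [tw_coeff, qExpand_coeff_of_not_dvd n _ hk, qExpand_coeff_of_not_dvd n _ hk, mul_zero]

theorem tw_qExpand_of_pow_eq_one (ξ : Aˣ) (n : ℕ) [NeZero n] (h : ξ ^ n = 1)
    (f : LaurentSeries A) : tw ξ (qExpand A n f) = qExpand A n f := by
  rw [tw_qExpand, h, tw_one]

theorem coeffMap_tw {B : Type*} [CommRing B] (φ : A →+* B) (ξ : Aˣ) (f : LaurentSeries A) :
    coeffMap φ (tw ξ f) = tw (Units.map (φ : A →* B) ξ) (coeffMap φ f) := by
  ext k
  rw [coeffMap_coeff, tw_coeff, tw_coeff, coeffMap_coeff, map_mul, ← map_zpow, Units.coe_map]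
  rfl

/-! ### Restriction of coefficients -/

/-- A Laurent series all of whose coefficients lie in the range of an injective ring
homomorphism comes from a Laurent series over the source. -/
theorem exists_coeffMap_eq {B : Type*} [CommRing B] (φ : A →+* B)
    (x : LaurentSeries B) (h : ∀ n, ∃ a : A, φ a = x.coeff n) :
    ∃ y : LaurentSeries A, coeffMap φ y = x := by
  classical
  choose c hc using h
  let c' : ℤ → A := fun n => if x.coeff n = 0 then 0 else c n
  have hc' : ∀ n, φ (c' n) = x.coeff n := by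
    intro n
    by_cases h0 : x.coeff n = 0
    · simp [c', h0]
    · simp [c', h0, hc n]
  refine ⟨⟨c', x.isPWO_support.mono (fun n hn => ?_)⟩, ?_⟩
  · simp only [Function.mem_support, ne_eq, HahnSeries.mem_support] at hn ⊢
    intro h0
    exact hn (by simp [c', h0])
  · ext n
    rw [coeffMap_coeff]
    exact hc' n

theorem coeffMap_injective {B : Type*} [CommRing B] (φ : A →+* B) (hφ : Function.Injective φ) :
    Function.Injective (coeffMap φ) := by
  intro x y hxy
  ext n
  have h := congrArg (fun z : LaurentSeries B => z.coeff n) hxy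
  simp only [coeffMap_coeff] at h
  exact hφ h

/-! ### Frobenius on Laurent series in characteristic `p` -/

theorem ofPowerSeries_pow_char (p : ℕ) [NeZero p] (k : Type*) [CommRing k] [ExpChar k p]
    (g : PowerSeries k) :
    (HahnSeries.ofPowerSeries ℤ k g) ^ p
      = qExpand k p (coeffMap (frobenius k p) (HahnSeries.ofPowerSeries ℤ k g)) := by
  rw [← map_pow (HahnSeries.ofPowerSeries ℤ k)]
  have hfrob : g ^ p = PowerSeries.map (frobenius k p) (PowerSeries.expand p (NeZero.ne p) g) :=
    (MvPowerSeries.map_frobenius_expand p (NeZero.ne p) (f := g)).symm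
  rw [hfrob]
  ext m
  rcases lt_or_ge m 0 with hm | hm
  · rw [ofPowerSeries_coeff_of_neg _ hm]
    by_cases hpm : (p : ℤ) ∣ m
    · obtain ⟨c, rfl⟩ := hpm
      rw [qExpand_coeff_mul, coeffMap_coeff]
      have hc : c < 0 := by
        by_contra hc
        have : (0 : ℤ) ≤ (p : ℤ) * c := mul_nonneg (by positivity) (not_lt.mp hc)
        omega
      rw [ofPowerSeries_coeff_of_neg _ hc, map_zero]
    · rw [qExpand_coeff_of_not_dvd p _ hpm]
  · obtain ⟨n, rfl⟩ := Int.eq_ofNat_of_zero_le hm
    rw [HahnSeries.ofPowerSeries_apply_coeff, PowerSeries.coeff_map, PowerSeries.coeff_expand]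
    by_cases hpn : p ∣ n
    · obtain ⟨c, rfl⟩ := hpn
      rw [if_pos (dvd_mul_right p c), Nat.mul_div_cancel_left c (Nat.pos_of_ne_zero (NeZero.ne p))]
      push_cast
      rw [qExpand_coeff_mul, coeffMap_coeff, HahnSeries.ofPowerSeries_apply_coeff]
    · rw [if_neg hpn, map_zero, qExpand_coeff_of_not_dvd p _ (by exact_mod_cast hpn)]

/-- In characteristic `p`: `f ^ p = f^{(p)}(q^p)` where `f^{(p)}` has Frobenius-twisted
coefficients. -/
theorem pow_char_eq_qExpand (p : ℕ) [NeZero p] (k : Type*) [CommRing k] [ExpChar k p]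
    (f : LaurentSeries k) :
    f ^ p = qExpand k p (coeffMap (frobenius k p) f) := by
  have hf := (LaurentSeries.single_order_mul_powerSeriesPart f).symm
  rw [hf, mul_pow, map_mul (coeffMap (frobenius k p)), map_mul (qExpand k p),
    ofPowerSeries_pow_char]
  congr 1
  rw [coeffMap_single, qExpand_single, HahnSeries.single_pow, map_one, one_pow, nsmul_eq_mul]

end Fermat.Agent.S37.E1_3831
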