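/-
S37 / GALREP package KRON, part E1 (helper3831): the Hecke norm
`Norm_α : ℚ̄(X₀(Nℓ)) → ℚ̄(X₀(N))` on `q`-expansions.  For a prime `ℓ ∤ N`, a primitive `ℓ`-th root
of unity `ζ` and the swap `w`:

    (Norm_α x)(q^ℓ) = x(q^ℓ) · ∏_{b < ℓ} (w x)(ζ^b q),

in particular `(Norm_α (β g))(q^ℓ) = g(q^{ℓ²}) · ∏_{b < ℓ} g(ζ^b q)`.
Proof: the `ℓ + 1` maps `x ↦ x(q^ℓ)` and `x ↦ (w x)(ζ^b q)` are distinct embeddings of
`ℚ̄(X₀(Nℓ))` over `ℚ̄(X₀(N))` (structure map `g ↦ g(q^ℓ)`), and the degree is `ℓ + 1`.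
-/
import Mathlib
import Fermat.Agent.S37.E1_3831.Swap
import Fermat.Agent.S37.E1_3831.Degree
import Fermat.Agent.S37.E1_3831.Twist

set_option autoImplicit false
set_option linter.unusedSectionVars false
set_option linter.style.haveILetI false

open ModularCurve AlgebraicCurve HahnSeries

namespace Fermat.Agent.S37.E1_3831

noncomputable section

local notation "K" => AlgebraicClosure ℚ

variable (N ℓ : ℕ) [NeZero N] [NeZero ℓ]

/-- The big algebraically closed field. -/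
abbrev BigE : Type := AlgebraicClosure (LaurentSeries K)

/-- `ℚ̄((q)) → E`. -/
def embE : LaurentSeries K →+* BigE := algebraMap (LaurentSeries K) BigE

theorem embE_injective : Function.Injective embE := (embE).injective

/-- The structure map `ℚ̄(X₀(N)) → E`, `g ↦ g(q^ℓ)`. -/
def iotaN : ↥(modularFunctionFieldBar N) →+* BigE :=
  embE.comp ((qExpand K ℓ).comp (modularFunctionFieldBar N).val.toRingHom)

theorem iotaN_apply (r : ↥(modularFunctionFieldBar N)) :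
    iotaN N ℓ r = embE (qExpand K ℓ (r : LaurentSeries K)) := rfl

/-- The embedding `x ↦ x(q^ℓ)` of `ℚ̄(X₀(Nℓ))`. -/
def sigmaInf : ↥(modularFunctionFieldBar (N * ℓ)) →+* BigE :=
  embE.comp ((qExpand K ℓ).comp (modularFunctionFieldBar (N * ℓ)).val.toRingHom)

theorem sigmaInf_apply (x : ↥(modularFunctionFieldBar (N * ℓ))) :
    sigmaInf N ℓ x = embE (qExpand K ℓ (x : LaurentSeries K)) := rfl

theorem sigmaInf_alpha (r : ↥(modularFunctionFieldBar N)) :
    sigmaInf N ℓ (heckeAlphaBar K N ℓ r) = iotaN N ℓ r := by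
  rw [sigmaInf_apply, iotaN_apply, coe_heckeAlphaBar]

/-- The embeddings `x ↦ (w x)(ζ^b q)`. -/
def sigmaB (ζ : Kˣ) (w : ↥(modularFunctionFieldBar (N * ℓ)) →+* ↥(modularFunctionFieldBar (N * ℓ)))
    (b : ℕ) : ↥(modularFunctionFieldBar (N * ℓ)) →+* BigE :=
  embE.comp ((tw (ζ ^ b)).comp ((modularFunctionFieldBar (N * ℓ)).val.toRingHom.comp w))

theorem sigmaB_apply (ζ : Kˣ)
    (w : ↥(modularFunctionFieldBar (N * ℓ)) →+* ↥(modularFunctionFieldBar (N * ℓ)))
    (b : ℕ) (x : ↥(modularFunctionFieldBar (N * ℓ))) :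
    sigmaB N ℓ ζ w b x = embE (tw (ζ ^ b) ((w x : ↥(modularFunctionFieldBar (N * ℓ))) :
      LaurentSeries K)) := rfl

theorem sigmaB_alpha (ζ : Kˣ) (hζ : ζ ^ ℓ = 1)
    (w : ↥(modularFunctionFieldBar (N * ℓ)) →+* ↥(modularFunctionFieldBar (N * ℓ)))
    (hwα : ∀ x : ↥(modularFunctionFieldBar N), w (heckeAlphaBar K N ℓ x) = heckeBetaBar K N ℓ x)
    (b : ℕ) (r : ↥(modularFunctionFieldBar N)) :
    sigmaB N ℓ ζ w b (heckeAlphaBar K N ℓ r) = iotaN N ℓ r := by
  have hζpow : (ζ ^ b) ^ ℓ = 1 := by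
    rw [← pow_mul, mul_comm, pow_mul, hζ, one_pow]
  rw [sigmaB_apply, iotaN_apply, hwα r, coe_heckeBetaBar, tw_qExpand_of_pow_eq_one _ _ hζpow]

/-- The algebra structure `ℚ̄(X₀(N)) → E` via `g ↦ g(q^ℓ)`. -/
abbrev algFE : Algebra ↥(modularFunctionFieldBar N) BigE := (iotaN N ℓ).toAlgebra

/-- `sigmaInf` as an algebra hom. -/
def sigmaInfAlg :
    letI := algebraAlong (heckeAlphaBar K N ℓ)
    letI := algFE N ℓ
    ↥(modularFunctionFieldBar (N * ℓ)) →ₐ[↥(modularFunctionFieldBar N)] BigE :=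
  letI := algebraAlong (heckeAlphaBar K N ℓ)
  letI := algFE N ℓ
  { toRingHom := sigmaInf N ℓ
    commutes' := fun r => sigmaInf_alpha N ℓ r }

/-- `sigmaB` as an algebra hom. -/
def sigmaBAlg (ζ : Kˣ) (hζ : ζ ^ ℓ = 1)
    (w : ↥(modularFunctionFieldBar (N * ℓ)) →+* ↥(modularFunctionFieldBar (N * ℓ)))
    (hwα : ∀ x : ↥(modularFunctionFieldBar N), w (heckeAlphaBar K N ℓ x) = heckeBetaBar K N ℓ x)
    (b : ℕ) :
    letI := algebraAlong (heckeAlphaBar K N ℓ)
    letI := algFE N ℓ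
    ↥(modularFunctionFieldBar (N * ℓ)) →ₐ[↥(modularFunctionFieldBar N)] BigE :=
  letI := algebraAlong (heckeAlphaBar K N ℓ)
  letI := algFE N ℓ
  { toRingHom := sigmaB N ℓ ζ w b
    commutes' := fun r => sigmaB_alpha N ℓ ζ hζ w hwα b r }

/-- The family of `ℓ + 1` embeddings. -/
def embFam (ζ : Kˣ) (hζ : ζ ^ ℓ = 1)
    (w : ↥(modularFunctionFieldBar (N * ℓ)) →+* ↥(modularFunctionFieldBar (N * ℓ)))
    (hwα : ∀ x : ↥(modularFunctionFieldBar N), w (heckeAlphaBar K N ℓ x) = heckeBetaBar K N ℓ x) :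
    letI := algebraAlong (heckeAlphaBar K N ℓ)
    letI := algFE N ℓ
    Option (Fin ℓ) → (↥(modularFunctionFieldBar (N * ℓ)) →ₐ[↥(modularFunctionFieldBar N)] BigE) :=
  fun o => o.elim (sigmaInfAlg N ℓ) (fun b => sigmaBAlg N ℓ ζ hζ w hwα b.1)

theorem embFam_none_apply (ζ : Kˣ) (hζ : ζ ^ ℓ = 1)
    (w : ↥(modularFunctionFieldBar (N * ℓ)) →+* ↥(modularFunctionFieldBar (N * ℓ)))
    (hwα : ∀ x : ↥(modularFunctionFieldBar N), w (heckeAlphaBar K N ℓ x) = heckeBetaBar K N ℓ x)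
    (x : ↥(modularFunctionFieldBar (N * ℓ))) :
    (letI := algebraAlong (heckeAlphaBar K N ℓ); letI := algFE N ℓ;
      (embFam N ℓ ζ hζ w hwα none) x) = embE (qExpand K ℓ (x : LaurentSeries K)) := rfl

theorem embFam_some_apply (ζ : Kˣ) (hζ : ζ ^ ℓ = 1)
    (w : ↥(modularFunctionFieldBar (N * ℓ)) →+* ↥(modularFunctionFieldBar (N * ℓ)))
    (hwα : ∀ x : ↥(modularFunctionFieldBar N), w (heckeAlphaBar K N ℓ x) = heckeBetaBar K N ℓ x)
    (b : Fin ℓ) (x : ↥(modularFunctionFieldBar (N * ℓ))) :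
    (letI := algebraAlong (heckeAlphaBar K N ℓ); letI := algFE N ℓ;
      (embFam N ℓ ζ hζ w hwα (some b)) x)
      = embE (tw (ζ ^ b.1) ((w x : ↥(modularFunctionFieldBar (N * ℓ))) : LaurentSeries K)) := rfl

theorem coe_jBar_coeff_neg_one :
    ((Fermat.Agent.S24.jBar N : ↥(modularFunctionFieldBar N)) : LaurentSeries K).coeff (-1) = 1 := by
  show (coeffEmb K jq).coeff (-1) = 1
  rw [coeffEmb_coeff, coeff_jq_neg_one, map_one]

theorem embFam_injective (hℓ : ℓ.Prime) (ζ : Kˣ) (hζ : IsPrimitiveRoot ζ ℓ)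
    (w : ↥(modularFunctionFieldBar (N * ℓ)) →+* ↥(modularFunctionFieldBar (N * ℓ)))
    (hwα : ∀ x : ↥(modularFunctionFieldBar N), w (heckeAlphaBar K N ℓ x) = heckeBetaBar K N ℓ x)
    (hwβ : ∀ x : ↥(modularFunctionFieldBar N), w (heckeBetaBar K N ℓ x) = heckeAlphaBar K N ℓ x) :
    Function.Injective (embFam N ℓ ζ hζ.pow_eq_one w hwα) := by
  letI := algebraAlong (heckeAlphaBar K N ℓ)
  letI := algFE N ℓ
  set t : ↥(modularFunctionFieldBar (N * ℓ)) := heckeBetaBar K N ℓ (Fermat.Agent.S24.jBar N)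
    with ht
  have hnone : (embFam N ℓ ζ hζ.pow_eq_one w hwα none) t
      = embE (qExpand K ℓ (qExpand K ℓ
          ((Fermat.Agent.S24.jBar N : ↥(modularFunctionFieldBar N)) : LaurentSeries K))) := by
    rw [embFam_none_apply, ht, coe_heckeBetaBar]
  have hsome : ∀ b : Fin ℓ, (embFam N ℓ ζ hζ.pow_eq_one w hwα (some b)) t
      = embE (tw (ζ ^ b.1)
          ((Fermat.Agent.S24.jBar N : ↥(modularFunctionFieldBar N)) : LaurentSeries K)) := by
    intro b
    rw [embFam_some_apply, ht, hwβ, coe_heckeAlphaBar]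
  have hc0 : (qExpand K ℓ (qExpand K ℓ
      ((Fermat.Agent.S24.jBar N : ↥(modularFunctionFieldBar N)) : LaurentSeries K))).coeff (-1)
      = 0 := by
    apply qExpand_coeff_of_not_dvd
    intro hdvd
    have h2 : (ℓ : ℤ) ∣ 1 := (dvd_neg.mp hdvd)
    have h3 : ℓ ∣ 1 := by exact_mod_cast h2
    exact hℓ.one_lt.ne' (Nat.dvd_one.mp h3)
  have hcb : ∀ b : ℕ, (tw (ζ ^ b)
      ((Fermat.Agent.S24.jBar N : ↥(modularFunctionFieldBar N)) : LaurentSeries K)).coeff (-1)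
      = (((ζ ^ b)⁻¹ : Kˣ) : K) := by
    intro b
    rw [tw_coeff, coe_jBar_coeff_neg_one, mul_one, zpow_neg_one]
  intro o o' h
  have h' := DFunLike.congr_fun h t
  rcases o with _ | b <;> rcases o' with _ | b'
  · rfl
  · exfalso
    rw [hnone, hsome] at h'
    have h2 := congrArg (fun z : LaurentSeries K => z.coeff (-1)) (embE_injective h')
    simp only [hc0, hcb] at h2
    exact (Units.ne_zero _) h2.symm
  · exfalso
    rw [hnone, hsome] at h'
    have h2 := congrArg (fun z : LaurentSeries K => z.coeff (-1)) (embE_injective h')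
    simp only [hc0, hcb] at h2
    exact (Units.ne_zero _) h2
  · rw [hsome, hsome] at h'
    have h2 := congrArg (fun z : LaurentSeries K => z.coeff (-1)) (embE_injective h')
    simp only [hcb] at h2
    have h3 : ζ ^ b.1 = ζ ^ b'.1 := by
      have := Units.ext h2
      exact inv_injective this
    have h4 := hζ.pow_inj b.2 b'.2 h3
    exact congrArg some (Fin.ext h4)

/-- The norm along the inclusion `α : ℚ̄(X₀(N)) → ℚ̄(X₀(Nℓ))`. -/
def heckeNorm : ↥(modularFunctionFieldBar (N * ℓ)) →* ↥(modularFunctionFieldBar N) :=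
  letI := algebraAlong (heckeAlphaBar K N ℓ)
  Algebra.norm ↥(modularFunctionFieldBar N)

theorem heckeNorm_def (x : ↥(modularFunctionFieldBar (N * ℓ))) :
    heckeNorm N ℓ x =
      (letI := algebraAlong (heckeAlphaBar K N ℓ); Algebra.norm ↥(modularFunctionFieldBar N) x) :=
  rfl

/-- **E1, general form.** -/
theorem qExpand_heckeNorm (hℓ : ℓ.Prime) (hℓN : ¬ ℓ ∣ N) (ζ : Kˣ)
    (hζ : IsPrimitiveRoot ζ ℓ)
    (w : ↥(modularFunctionFieldBar (N * ℓ)) →+* ↥(modularFunctionFieldBar (N * ℓ)))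
    (hwα : ∀ x : ↥(modularFunctionFieldBar N), w (heckeAlphaBar K N ℓ x) = heckeBetaBar K N ℓ x)
    (hwβ : ∀ x : ↥(modularFunctionFieldBar N), w (heckeBetaBar K N ℓ x) = heckeAlphaBar K N ℓ x)
    (x : ↥(modularFunctionFieldBar (N * ℓ))) :
    qExpand K ℓ ((heckeNorm N ℓ x : ↥(modularFunctionFieldBar N)) : LaurentSeries K)
      = qExpand K ℓ (x : LaurentSeries K)
        * ∏ b ∈ Finset.range ℓ, tw (ζ ^ b) ((w x : ↥(modularFunctionFieldBar (N * ℓ))) :
            LaurentSeries K) := by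
  classical
  letI algFF : Algebra ↥(modularFunctionFieldBar N) ↥(modularFunctionFieldBar (N * ℓ)) :=
    algebraAlong (heckeAlphaBar K N ℓ)
  letI algFE' : Algebra ↥(modularFunctionFieldBar N) BigE := algFE N ℓ
  have hfr : Module.finrank ↥(modularFunctionFieldBar N) ↥(modularFunctionFieldBar (N * ℓ))
      = ℓ + 1 := finrankAlong_heckeAlphaBar N ℓ hℓ hℓN
  haveI : FiniteDimensional ↥(modularFunctionFieldBar N) ↥(modularFunctionFieldBar (N * ℓ)) :=
    Module.finite_of_finrank_pos (by rw [hfr]; omega)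
  haveI : Algebra.IsSeparable ↥(modularFunctionFieldBar N) ↥(modularFunctionFieldBar (N * ℓ)) :=
    inferInstance
  have hbij : Function.Bijective (embFam N ℓ ζ hζ.pow_eq_one w hwα) := by
    rw [Fintype.bijective_iff_injective_and_card]
    refine ⟨embFam_injective N ℓ hℓ ζ hζ w hwα hwβ, ?_⟩
    rw [AlgHom.card, hfr, Fintype.card_option, Fintype.card_fin]
  have hnorm := Algebra.norm_eq_prod_embeddings ↥(modularFunctionFieldBar N) BigE x
  rw [← Fintype.prod_bijective _ hbij (fun o => embFam N ℓ ζ hζ.pow_eq_one w hwα o x)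
    (fun σ => σ x) (fun _ => rfl), Fintype.prod_option] at hnorm
  apply embE_injective
  rw [map_mul, map_prod, ← Fin.prod_univ_eq_prod_range
    (fun b => embE (tw (ζ ^ b) ((w x : ↥(modularFunctionFieldBar (N * ℓ))) : LaurentSeries K))) ℓ]
  exact hnorm

/-- **E1.**  `(Norm_α (β g))(q^ℓ) = g(q^{ℓ²}) · ∏_{b < ℓ} g(ζ^b q)`. -/
theorem qExpand_heckeNorm_beta (hℓ : ℓ.Prime) (hℓN : ¬ ℓ ∣ N) (ζ : Kˣ)
    (hζ : IsPrimitiveRoot ζ ℓ) (g : ↥(modularFunctionFieldBar N)) :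
    qExpand K ℓ ((heckeNorm N ℓ (heckeBetaBar K N ℓ g) : ↥(modularFunctionFieldBar N)) :
        LaurentSeries K)
      = qExpand K ℓ (qExpand K ℓ (g : LaurentSeries K))
        * ∏ b ∈ Finset.range ℓ, tw (ζ ^ b) (g : LaurentSeries K) := by
  obtain ⟨w, -, hwα, hwβ⟩ := exists_swap N ℓ hℓ hℓN
  rw [qExpand_heckeNorm N ℓ hℓ hℓN ζ hζ w hwα hwβ, hwβ, coe_heckeAlphaBar, coe_heckeBetaBar]

end

end Fermat.Agent.S37.E1_3831
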