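/-
S37 / GALREP package KRON, part E2 (helper3831): the Kronecker congruence for the Hecke norm.

`A` a valuation subring of `ℚ̄` over the prime `ℓ ∤ N`, `π : A → k` its residue map,
`y ∈ A((q))` with `f = coeffMap A.subtype y ∈ ℚ̄(X₀(N))`.  Then `Norm_α(β f)` has an `A`-integral
`q`-expansion `y'` and

    (coeffMap π y')(q^ℓ) = ȳ(q^{ℓ²}) · ȳ(q)^ℓ,     i.e.     coeffMap π y' = ȳ(q^ℓ) · ȳ^{Frob}(q),

where `ȳ = coeffMap π y` and `ȳ^{Frob}` has Frobenius-twisted coefficients.
-/
import Mathlib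
import Fermat.Prelude.Def_FLTPrelim_Ramification
import Fermat.Agent.S37.E1_3831.Norm

set_option autoImplicit false
set_option linter.unusedSectionVars false
set_option linter.style.haveILetI false

open ModularCurve AlgebraicCurve HahnSeries

namespace Fermat.Agent.S37.E1_3831

noncomputable section

local notation "K" => AlgebraicClosure ℚ

/-- A root of unity of a field lies in every valuation subring, as a unit. -/
theorem exists_unit_of_pow_eq_one {L : Type*} [Field L] (A : ValuationSubring L) (n : ℕ)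
    (hn : 0 < n) (ζ : Lˣ) (hζ : ζ ^ n = 1) :
    ∃ u : Aˣ, ((u : A) : L) = (ζ : L) := by
  have hmem : ∀ ξ : Lˣ, ξ ^ n = 1 → (ξ : L) ∈ A := by
    intro ξ hξ
    rcases A.mem_or_inv_mem (ξ : L) with h | h
    · exact h
    · have h1 : (ξ : L) = ((ξ : L)⁻¹) ^ (n - 1) := by
        have h2 : (ξ : L) ^ n = 1 := by rw [← Units.val_pow_eq_pow_val, hξ, Units.val_one]
        have h3 : (ξ : L) ^ (n - 1) * (ξ : L) = 1 := by
          rw [← pow_succ, Nat.sub_add_cancel hn, h2]
        rw [inv_pow]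
        exact eq_inv_of_mul_eq_one_right h3
      rw [h1]
      exact pow_mem h _
  have hζinv : ζ⁻¹ ^ n = 1 := by rw [inv_pow, hζ, inv_one]
  refine ⟨⟨⟨(ζ : L), hmem ζ hζ⟩, ⟨((ζ⁻¹ : Lˣ) : L), hmem ζ⁻¹ hζinv⟩, ?_, ?_⟩, rfl⟩
  · exact Subtype.ext (by simp)
  · exact Subtype.ext (by simp)

/-- The residue field of a valuation subring over `ℓ` has characteristic `ℓ`. -/
theorem charP_residueField {L : Type*} [Field L] (A : ValuationSubring L) (ℓ : ℕ) (hℓ : ℓ.Prime)
    (hA : A.LiesOverPrime ℓ) : CharP (IsLocalRing.ResidueField A) ℓ := by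
  have h0 : ((ℓ : A) : L) ∈ A.nonunits := by
    have : ((ℓ : A) : L) = (ℓ : L) := by simp
    rw [this]; exact hA
  have h1 : (ℓ : A) ∈ IsLocalRing.maximalIdeal A := by
    rw [IsLocalRing.mem_maximalIdeal, mem_nonunits_iff]
    intro hu
    exact (A.mem_nonunits_iff_exists_mem_maximalIdeal.mp h0).2 |> fun h => by
      rw [IsLocalRing.mem_maximalIdeal, mem_nonunits_iff] at h
      exact h (by convert hu)
  have h2 : ((ℓ : ℕ) : IsLocalRing.ResidueField A) = 0 := by
    have := (IsLocalRing.residue_eq_zero_iff (ℓ : A)).mpr h1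
    rw [map_natCast] at this
    exact this
  have h3 := CharP.ringChar_of_prime_eq_zero hℓ h2
  rw [← h3]
  exact ringChar.charP _

variable (N ℓ : ℕ) [NeZero N] [NeZero ℓ]

/-- **KRON, raw form.**  `Norm_α(β f)` has an `A`-integral `q`-expansion `y'` with
`ȳ'(q^ℓ) = ȳ(q^{ℓ²}) · ȳ(q)^ℓ`. -/
theorem exists_integral_heckeNorm (hℓ : ℓ.Prime) (hℓN : ¬ ℓ ∣ N)
    (A : ValuationSubring K) (hA : A.LiesOverPrime ℓ)
    (y : LaurentSeries A) (hy : coeffMap A.subtype y ∈ modularFunctionFieldBar N) :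
    ∃ y' : LaurentSeries A,
      coeffMap A.subtype y'
        = ((heckeNorm N ℓ (heckeBetaBar K N ℓ ⟨coeffMap A.subtype y, hy⟩) :
            ↥(modularFunctionFieldBar N)) : LaurentSeries K) ∧
      qExpand (IsLocalRing.ResidueField A) ℓ (coeffMap (IsLocalRing.residue A) y')
        = qExpand (IsLocalRing.ResidueField A) ℓ
            (qExpand (IsLocalRing.ResidueField A) ℓ (coeffMap (IsLocalRing.residue A) y))
          * (coeffMap (IsLocalRing.residue A) y) ^ ℓ := by
  classical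
  haveI : NeZero ((ℓ : ℕ) : K) := ⟨by exact_mod_cast hℓ.ne_zero⟩
  obtain ⟨ζ0, hζ0⟩ := HasEnoughRootsOfUnity.exists_primitiveRoot K ℓ
  have hζ0u : IsUnit ζ0 := hζ0.isUnit hℓ.ne_zero
  obtain ⟨ζ, rfl⟩ := hζ0u
  have hζ : IsPrimitiveRoot ζ ℓ := IsPrimitiveRoot.coe_units_iff.mp hζ0
  obtain ⟨ζA, hζA⟩ := exists_unit_of_pow_eq_one A ℓ hℓ.pos ζ hζ.pow_eq_one
  have hmapζ : Units.map (A.subtype : A →* K) ζA = ζ := Units.ext hζA
  -- the integral model of the right-hand side of E1
  set Y : LaurentSeries A := qExpand A ℓ (qExpand A ℓ y) * ∏ b ∈ Finset.range ℓ, tw (ζA ^ b) y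
    with hY
  have hE1 := qExpand_heckeNorm_beta N ℓ hℓ hℓN ζ hζ ⟨coeffMap A.subtype y, hy⟩
  set x : LaurentSeries K := ((heckeNorm N ℓ (heckeBetaBar K N ℓ ⟨coeffMap A.subtype y, hy⟩) :
            ↥(modularFunctionFieldBar N)) : LaurentSeries K) with hx
  have hYx : coeffMap A.subtype Y = qExpand K ℓ x := by
    rw [hE1, hY, map_mul, map_prod, ModularCurve.coeffMap_qExpand, ModularCurve.coeffMap_qExpand]
    congr 1
    refine Finset.prod_congr rfl fun b _ => ?_
    rw [coeffMap_tw, map_pow, hmapζ]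
  have hcoeff : ∀ n, ∃ a : A, A.subtype a = x.coeff n := by
    intro n
    refine ⟨Y.coeff ((ℓ : ℤ) * n), ?_⟩
    rw [← coeffMap_coeff, hYx, qExpand_coeff_mul]
  obtain ⟨y', hy'⟩ := exists_coeffMap_eq A.subtype x hcoeff
  refine ⟨y', hy', ?_⟩
  have hinj : Function.Injective (coeffMap (A.subtype : A →+* K)) :=
    coeffMap_injective _ Subtype.val_injective
  have hqy' : qExpand A ℓ y' = Y := by
    apply hinj
    rw [ModularCurve.coeffMap_qExpand, hy', hYx]
  -- reduce
  haveI hchar : CharP (IsLocalRing.ResidueField A) ℓ := charP_residueField A ℓ hℓ hA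
  haveI : Fact ℓ.Prime := ⟨hℓ⟩
  have hres : (IsLocalRing.residue A) (ζA : A) = 1 := by
    have h1 : ((IsLocalRing.residue A) (ζA : A)) ^ ℓ = 1 := by
      rw [← map_pow, ← Units.val_pow_eq_pow_val]
      have : ζA ^ ℓ = 1 := by
        apply Units.ext
        apply Subtype.ext
        rw [Units.val_pow_eq_pow_val]
        push_cast
        rw [hζA, ← Units.val_pow_eq_pow_val, hζ.pow_eq_one]
        rfl
      rw [this, Units.val_one, map_one]
    have h2 : ((IsLocalRing.residue A) (ζA : A) - 1) ^ ℓ = 0 := by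
      rw [sub_pow_char, h1, one_pow, sub_self]
    exact sub_eq_zero.mp (pow_eq_zero_iff hℓ.ne_zero |>.mp h2)
  have hmapres : Units.map ((IsLocalRing.residue A : A →+* IsLocalRing.ResidueField A) :
      A →* IsLocalRing.ResidueField A) ζA = 1 := Units.ext hres
  have hred := congrArg (coeffMap (IsLocalRing.residue A)) hqy'
  rw [ModularCurve.coeffMap_qExpand, hY, map_mul, map_prod, ModularCurve.coeffMap_qExpand,
    ModularCurve.coeffMap_qExpand] at hred
  rw [hred]
  congr 1
  rw [Finset.prod_congr rfl (fun b _ => by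
    rw [coeffMap_tw, map_pow, hmapres, one_pow, tw_one] :
    ∀ b ∈ Finset.range ℓ, coeffMap (IsLocalRing.residue A) (tw (ζA ^ b) y)
      = coeffMap (IsLocalRing.residue A) y), Finset.prod_const, Finset.card_range]

/-- **KRON (Kronecker congruence for the Hecke norm).**
`coeffMap π y' = ȳ(q^ℓ) · ȳ^{Frob}(q)`. -/
theorem exists_integral_heckeNorm_frobenius (hℓ : ℓ.Prime) (hℓN : ¬ ℓ ∣ N)
    (A : ValuationSubring K) (hA : A.LiesOverPrime ℓ)
    [ExpChar (IsLocalRing.ResidueField A) ℓ]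
    (y : LaurentSeries A) (hy : coeffMap A.subtype y ∈ modularFunctionFieldBar N) :
    ∃ y' : LaurentSeries A,
      coeffMap A.subtype y'
        = ((heckeNorm N ℓ (heckeBetaBar K N ℓ ⟨coeffMap A.subtype y, hy⟩) :
            ↥(modularFunctionFieldBar N)) : LaurentSeries K) ∧
      coeffMap (IsLocalRing.residue A) y'
        = qExpand (IsLocalRing.ResidueField A) ℓ (coeffMap (IsLocalRing.residue A) y)
          * coeffMap (frobenius (IsLocalRing.ResidueField A) ℓ)
              (coeffMap (IsLocalRing.residue A) y) := by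
  obtain ⟨y', hy', hred⟩ := exists_integral_heckeNorm N ℓ hℓ hℓN A hA y hy
  refine ⟨y', hy', ?_⟩
  apply qExpand_injective (R := IsLocalRing.ResidueField A) ℓ
  rw [hred, map_mul, pow_char_eq_qExpand]

end

end Fermat.Agent.S37.E1_3831
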